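import Mathlib
import Fermat.Prelude.Def_ModularCurve_ArithmeticGalois
import Fermat.Agent.A2.H129.GaussTwice
import Fermat.Agent.A2.H129.GaussTwiceB
import Fermat.Agent.A2.H708.Tame
import Fermat.Agent.A2.H708.GaussInf
import Fermat.Agent.S18.H602.DVR

/-!
# A2 (helper708): the Gauss valuation at `∞` over `ℚ̄`, and the K2 hypotheses for inertia

`A` a valuation subring of `ℚ̄` over a prime `ℓ` (non-discrete!), `F₀ ⊆ ℚ((t))` generated by
integer series, `F = laurentBaseChange ℚ̄ F₀`.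

* `attainsMax_Qbar` : `AttainsMax A F₀` (every element of `F` is defined over a number field `E`,
  and `A ∩ E` is a DVR; `S18/H602`).
* `gaussInfBar A F₀ hgen hℓ hA : ValuationSubring F`.
* for `σ ∈ A.inertiaSubgroupIn ℚ`, `τ = arithmeticRingAut F₀ σ` and `Kc` = the constants:
  `hasConstValues`, `inInertia`, `preservesConstValues`, `constants_stable`
  = EXACTLY the hypotheses of `H129.exists_const_twice_two` / `H129.oneAddNonunits_twice`;
  `oneAddNonunits_twice_gaussInfBar` : `(τ - 1)² f ∈ 1 + 𝔪_V` for every `f ≠ 0`.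
-/

set_option autoImplicit false

noncomputable section

namespace Fermat.Agent.A2.H708

open ModularCurve HahnSeries IntermediateField Fermat.Agent.S18.H602 Fermat.Agent.A2.H129

local notation "Q̄" => AlgebraicClosure ℚ

variable {A : ValuationSubring Q̄}
variable {ℓ : ℕ} (hℓ : ℓ ≠ 0) (hA : (ℓ : Q̄) ∈ A.nonunits)
variable (F₀ : IntermediateField ℚ (LaurentSeries ℚ))

include hℓ hA in
/-- **Discreteness over `ℚ̄`.** A nonzero element of `F = ℚ̄·F₀` with bounded denominators has a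
coefficient of maximal valuation. -/
theorem attainsMax_Qbar : AttainsMax A F₀ := by
  classical
  intro x hx hx0 hb
  obtain ⟨d, hd0, hd⟩ := hb
  have hQalg : Algebra.IsAlgebraic ℚ Q̄ := AlgebraicClosure.isAlgebraic ℚ
  have : FiniteDimensional ℚ ℚ⟮d⟯ := IntermediateField.adjoin.finiteDimensional
    (Algebra.IsAlgebraic.isAlgebraic d).isIntegral
  obtain ⟨E, hE, hdE, hxE, -⟩ := exists_finite_descent₂ (F₀ := F₀) ℚ⟮d⟯ hx hx
  obtain ⟨y, -, rfl⟩ := hxE
  have hdmem : d ∈ E := hdE (mem_adjoin_simple_self ℚ d)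
  set dE : E := ⟨d, hdmem⟩ with hdE'
  have hdE0 : dE ≠ 0 := fun h => hd0 (congrArg Subtype.val h)
  have := isDiscreteValuationRing_RE A E hℓ hA
  have hy0 : y ≠ 0 := by
    rintro rfl
    exact hx0 (map_zero _)
  have hcoeff : ∀ n, (coeffMap (algebraMap E Q̄) y).coeff n = algebraMap E Q̄ (y.coeff n) :=
    fun n => rfl
  have hb' : ∃ d' : E, d' ≠ 0 ∧ ∀ n, d' * y.coeff n ∈ RE A E := by
    refine ⟨dE, hdE0, fun n => ?_⟩
    rw [mem_RE]
    have := hd n
    rw [hcoeff] at this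
    simpa using this
  obtain ⟨n₀, hn₀, hmax⟩ := exists_max_coeff_of_isNoetherianRing (RE A E) hy0 hb'
  refine ⟨n₀, ?_, fun n => ?_⟩
  · rw [hcoeff]
    exact fun h => hn₀ ((map_eq_zero_iff _ (algebraMap E Q̄).injective).mp h)
  · -- compare the valuations of `R_E` and of `A`
    rw [hcoeff, hcoeff]
    by_cases h0 : y.coeff n = 0
    · rw [h0, map_zero, map_zero]; exact zero_le
    have h1 := hmax n
    have hv0 : (RE A E).valuation (y.coeff n₀) ≠ 0 := (Valuation.ne_zero_iff _).mpr hn₀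
    have h2 : (RE A E).valuation (y.coeff n / y.coeff n₀) ≤ 1 := by
      rw [map_div₀, div_le_one₀ (zero_lt_iff.mpr hv0)]
      exact h1
    have h3 : y.coeff n / y.coeff n₀ ∈ RE A E := ((RE A E).valuation_le_one_iff _).mp h2
    rw [mem_RE] at h3
    have h4 : A.valuation (algebraMap E Q̄ (y.coeff n / y.coeff n₀)) ≤ 1 :=
      (A.valuation_le_one_iff _).mpr h3
    rw [map_div₀, map_div₀] at h4
    have hv0' : A.valuation (algebraMap E Q̄ (y.coeff n₀)) ≠ 0 :=
      (Valuation.ne_zero_iff _).mpr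
        (fun h => hn₀ ((map_eq_zero_iff _ (algebraMap E Q̄).injective).mp h))
    rwa [div_le_one₀ (zero_lt_iff.mpr hv0')] at h4

variable (A) in
/-- **The Gauss valuation ring at `∞`** of `F = ℚ̄·F₀` for a valuation subring `A` of `ℚ̄` over a
prime. -/
def gaussInfBar (hgen : IntGen F₀) : ValuationSubring ↥(laurentBaseChange Q̄ F₀) :=
  gaussInf A F₀ hgen (attainsMax_Qbar hℓ hA F₀)

/-- the subfield of constants of `F`. -/
def constField : Subfield ↥(laurentBaseChange Q̄ F₀) :=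
  (algebraMap Q̄ ↥(laurentBaseChange Q̄ F₀)).fieldRange

variable {F₀}
variable (hgen : IntGen F₀)

/-- the value group of `V` is the value group of the constants. -/
theorem hasConstValues : HasConstValues (constField F₀) (gaussInfBar A hℓ hA F₀ hgen) := by
  intro f hf
  obtain ⟨c, hc, hu⟩ := exists_const_mul_unit hgen (attainsMax_Qbar hℓ hA F₀) hf
  refine ⟨algebraMap Q̄ _ c, ⟨c, rfl⟩, ?_, hu⟩
  rw [Ne, map_eq_zero_iff _ (algebraMap Q̄ ↥(laurentBaseChange Q̄ F₀)).injective]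
  exact hc

/-- valuation of constants. -/
theorem valuation_algebraMap_eq_one {c : Q̄} (hc : A.valuation c = 1) :
    (gaussInfBar A hℓ hA F₀ hgen).valuation (algebraMap Q̄ ↥(laurentBaseChange Q̄ F₀) c) = 1 := by
  have hc0 : c ≠ 0 := by
    rintro rfl
    simp at hc
  have h1 : algebraMap Q̄ ↥(laurentBaseChange Q̄ F₀) c ∈ gaussInfBar A hℓ hA F₀ hgen :=
    (algebraMap_mem_gaussInf_iff hgen _ c).mpr ((A.valuation_le_one_iff _).mp hc.le)
  have h2 : algebraMap Q̄ ↥(laurentBaseChange Q̄ F₀) c⁻¹ ∈ gaussInfBar A hℓ hA F₀ hgen :=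
    (algebraMap_mem_gaussInf_iff hgen _ c⁻¹).mpr
      ((A.valuation_le_one_iff _).mp (by rw [map_inv₀, hc, inv_one]))
  have h1' := ((gaussInfBar A hℓ hA F₀ hgen).valuation_le_one_iff _).mpr h1
  have h2' := ((gaussInfBar A hℓ hA F₀ hgen).valuation_le_one_iff _).mpr h2
  rw [map_inv₀, map_inv₀] at h2'
  have hv0 : (gaussInfBar A hℓ hA F₀ hgen).valuation
      (algebraMap Q̄ ↥(laurentBaseChange Q̄ F₀) c) ≠ 0 := by
    rw [Valuation.ne_zero_iff, Ne, map_eq_zero_iff _ (algebraMap Q̄ _).injective]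
    exact hc0
  rw [inv_le_one₀ (zero_lt_iff.mpr hv0)] at h2'
  exact le_antisymm h1' h2'

section inertia

variable {σ : Q̄ ≃ₐ[ℚ] Q̄} (hσ : σ ∈ A.inertiaSubgroupIn ℚ)

/-- the restriction of `σ` to `A`. -/
def resA (hσ : σ ∈ A.inertiaSubgroupIn ℚ) : A →+* A :=
  ((σ : Q̄ →+* Q̄).comp A.subtype).codRestrict A.toSubring
    (fun a => apply_mem_of_mem_decomposition A (mem_decomposition_of_mem_inertiaIn A hσ) a.2)

theorem coe_resA (a : A) : ((resA hσ a : A) : Q̄) = σ (a : Q̄) := rfl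

theorem incl_coeffMap_resA (U : LaurentSeries A) :
    incl A (coeffMap (resA hσ) U) = coeffMap (σ : Q̄ →+* Q̄) (incl A U) := by
  rw [incl, coeffMap_coeffMap, coeffMap_coeffMap]
  exact coeffMap_congr (RingHom.ext fun a => rfl) U

theorem red_coeffMap_resA (U : LaurentSeries A) :
    red A (coeffMap (resA hσ) U) = red A U := by
  rw [red, coeffMap_coeffMap]
  refine coeffMap_congr (RingHom.ext fun a => ?_) U
  rw [RingHom.comp_apply, ← sub_eq_zero, ← map_sub, IsLocalRing.residue_eq_zero_iff,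
    ← ValuationSubring.coe_mem_nonunits_iff]
  exact sub_mem_nonunits_of_mem_inertiaIn A hσ a.2

include hσ in
/-- **`τ` acts trivially on the residue field of `V`.** -/
theorem inInertia :
    InInertia (gaussInfBar A hℓ hA F₀ hgen) (arithmeticRingAut F₀ σ) := by
  intro u hu
  rw [ValuationSubring.valuation_le_one_iff] at hu
  obtain ⟨U₁, U₂, hp₂, hm₂, he⟩ := hu
  set τ := arithmeticRingAut F₀ σ with hτ
  set x : ↥(laurentBaseChange Q̄ F₀) := τ u - u with hx
  by_cases hx0 : x = 0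
  · rw [hx0, map_zero]; exact zero_lt_one
  have hx0' : (x : LaurentSeries Q̄) ≠ 0 := fun h => hx0 (Subtype.ext h)
  -- the integral relation for `x`
  set U₁' := coeffMap (resA hσ) U₁
  set U₂' := coeffMap (resA hσ) U₂
  have hτu : ((τ u : ↥(laurentBaseChange Q̄ F₀)) : LaurentSeries Q̄) * incl A U₂' = incl A U₁' := by
    rw [incl_coeffMap_resA, incl_coeffMap_resA, ← he, map_mul]
    rfl
  have hxW : (x : LaurentSeries Q̄) * incl A (U₂ * U₂') = incl A (U₁' * U₂ - U₁ * U₂') := by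
    have : (x : LaurentSeries Q̄) = ((τ u : ↥(laurentBaseChange Q̄ F₀)) : LaurentSeries Q̄)
        - (u : LaurentSeries Q̄) := rfl
    rw [this, map_mul, map_sub, map_mul, map_mul, ← hτu, ← he]
    ring
  have hW : red A (U₁' * U₂ - U₁ * U₂') = 0 := by
    rw [map_sub, map_mul, map_mul, red_coeffMap_resA, red_coeffMap_resA, mul_comm, sub_self]
  have hD : red A (U₂ * U₂') ≠ 0 := by
    rw [map_mul, red_coeffMap_resA]
    exact mul_ne_zero hp₂ hp₂
  obtain ⟨c, T₁, T₂, hc, hT₁, hT₂, hmT₁, hmT₂, heT⟩ :=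
    exists_normal_form hgen (attainsMax_Qbar hℓ hA F₀) x.2 hx0'
  have key : cst c * incl A (T₁ * (U₂ * U₂')) = incl A ((U₁' * U₂ - U₁ * U₂') * T₂) := by
    rw [map_mul, ← mul_assoc, ← heT, map_mul (incl A) _ T₂, ← hxW]
    ring
  have hc1 : A.valuation c < 1 := by
    refine valuation_lt_one_of_cst_mul_prim A ?_ ?_ key
    · rw [map_mul]
      exact mul_ne_zero hT₁ hD
    · rw [map_mul, hW, zero_mul]
  exact (valuation_lt_one_iff_of_normal_form hgen _ hc hT₁ hT₂ hmT₁ heT).mpr hc1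

include hσ in
/-- **`τ` preserves the values of the constants.** -/
theorem preservesConstValues :
    PreservesConstValues (constField F₀) (gaussInfBar A hℓ hA F₀ hgen)
      (arithmeticRingAut F₀ σ) := by
  have : Algebra.IsAlgebraic ℚ Q̄ := AlgebraicClosure.isAlgebraic ℚ
  rintro _ ⟨a, rfl⟩ ha0
  have ha : a ≠ 0 := by
    rintro rfl
    exact ha0 (map_zero _)
  have h1 : arithmeticRingAut F₀ σ (algebraMap Q̄ ↥(laurentBaseChange Q̄ F₀) a)
      * (algebraMap Q̄ ↥(laurentBaseChange Q̄ F₀) a)⁻¹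
      = algebraMap Q̄ ↥(laurentBaseChange Q̄ F₀) (σ a / a) := by
    rw [arithmeticRingAut_algebraMap, map_div₀, div_eq_mul_inv]
  show (gaussInfBar A hℓ hA F₀ hgen).valuation _ = 1
  rw [h1]
  exact valuation_algebraMap_eq_one hℓ hA hgen
    (valuation_apply_div_self A (mem_decomposition_of_mem_inertiaIn A hσ) ha)

omit hσ in
/-- `τ` maps constants to constants. -/
theorem constants_stable (σ : Q̄ ≃ₐ[ℚ] Q̄) :
    ∀ c ∈ constField F₀, arithmeticRingAut F₀ σ c ∈ constField F₀ := by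
  rintro _ ⟨a, rfl⟩
  exact ⟨σ a, (arithmeticRingAut_algebraMap F₀ σ a).symm⟩

include hσ in
/-- **`(τ - 1)² f ∈ 1 + 𝔪_{V∞}`** for every `f ≠ 0` and every `τ` in the inertia group. -/
theorem oneAddNonunits_twice_gaussInfBar {f : ↥(laurentBaseChange Q̄ F₀)} (hf : f ≠ 0) :
    OneAddNonunits (gaussInfBar A hℓ hA F₀ hgen)
      (tauSubOne (arithmeticRingAut F₀ σ) (tauSubOne (arithmeticRingAut F₀ σ) f)) :=
  oneAddNonunits_twice (hasConstValues hℓ hA hgen) (inInertia hℓ hA hgen hσ)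
    (preservesConstValues hℓ hA hgen hσ) hf

end inertia

/-! ## The hypotheses of `H528.comapW_ne` -/

/-- functions with an `A`-integral expansion lie in `V`. -/
theorem mem_gaussInfBar_of_incl {f : ↥(laurentBaseChange Q̄ F₀)} (U : LaurentSeries A)
    (h : (f : LaurentSeries Q̄) = incl A U) : f ∈ gaussInfBar A hℓ hA F₀ hgen := by
  show IsGaussInt A F₀ (f : LaurentSeries Q̄)
  rw [h]
  exact IsGaussInt.of_incl U

/-- functions with a primitive `A`-integral expansion are units of `V`. -/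
theorem inv_mem_gaussInfBar_of_incl {f : ↥(laurentBaseChange Q̄ F₀)} (U : LaurentSeries A)
    (h : (f : LaurentSeries Q̄) = incl A U) (hU : red A U ≠ 0) :
    f⁻¹ ∈ gaussInfBar A hℓ hA F₀ hgen := by
  show IsGaussInt A F₀ ((f⁻¹ : ↥(laurentBaseChange Q̄ F₀)) : LaurentSeries Q̄)
  have hf0 : (f : LaurentSeries Q̄) ≠ 0 := by
    rw [h]
    exact incl_ne_zero A (ne_zero_of_red_ne_zero A hU)
  refine ⟨1, U, hU, h ▸ f.2, ?_⟩
  rw [IntermediateField.coe_inv, ← h, inv_mul_cancel₀ hf0, map_one]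

/-- the prime `ℓ` is not a unit of `V`. -/
theorem inv_prime_not_mem_gaussInfBar :
    (algebraMap Q̄ ↥(laurentBaseChange Q̄ F₀) (ℓ : Q̄))⁻¹ ∉ gaussInfBar A hℓ hA F₀ hgen := by
  rw [← map_inv₀]
  intro h
  have h1 : ((ℓ : Q̄))⁻¹ ∈ A := (algebraMap_mem_gaussInf_iff hgen _ _).mp h
  have h2 : A.valuation ((ℓ : Q̄)) < 1 := A.mem_nonunits_iff.mp hA
  have h3 : A.valuation ((ℓ : Q̄))⁻¹ ≤ 1 := (A.valuation_le_one_iff _).mpr h1
  rw [map_inv₀] at h3
  have hℓ0 : (ℓ : Q̄) ≠ 0 := by exact_mod_cast hℓ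
  have hv0 : A.valuation ((ℓ : Q̄)) ≠ 0 := (Valuation.ne_zero_iff _).mpr hℓ0
  rw [inv_le_one₀ (zero_lt_iff.mpr hv0)] at h3
  exact absurd h2 (not_lt.mpr h3)

end Fermat.Agent.A2.H708
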