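import Fermat.Agent.A2.H708.GaussInfQbar
import Fermat.Agent.A2.H708.GaussInfModular
import Fermat.Agent.A2.H528.FrickeDistinct

/-!
# A2 (helper708): the two Gauss valuations `V∞`, `V₀` of `ℚ̄(X₀(N))` and the K2 conclusion

`N ≥ 1`, `A` a valuation subring of `ℚ̄` over a prime `ℓ`, `FF N = modularFunctionFieldBar N`.

* `Vinf N A hℓ hA : ValuationSubring (FF N)` : Gauss valuation of the `t`-expansion at `∞`;
* `Vzero N A hℓ hA := H528.comapW N (Vinf ..)` : its pull back by the Fricke involution `w_N`;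
* `Vzero_ne_Vinf` (for `ℓ ∣ N`);
* for `σ ∈ A.inertiaSubgroupIn ℚ`, `τ = H528.gal N σ` (action on coefficients) and EVERY `f ≠ 0`:
  `oneAddNonunits_twice_Vinf`, `oneAddNonunits_twice_Vzero` :
  `(τ - 1)² f ∈ 1 + 𝔪_V` for `V = V∞` and for `V = V₀` (no constant needed);
  `isUnitOf_once_Vinf`, `isUnitOf_once_Vzero` : `(τ - 1) f` is a unit of `V∞` and of `V₀`.

This is the complete step K2 of the board (`origin/helper34:coord/A2.md`) in concrete form.
-/

set_option autoImplicit false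
set_option linter.unusedSectionVars false
set_option synthInstance.maxHeartbeats 400000
set_option maxHeartbeats 1000000

noncomputable section

namespace Fermat.Agent.A2.H708

open ModularCurve HahnSeries AlgebraicCurve Fermat.Agent.S24 Fermat.Agent.A2.H129
  Fermat.Agent.A2.H528

variable (N : ℕ) [NeZero N] (A : ValuationSubring Kbar)
variable {ℓ : ℕ} (hℓ : ℓ ≠ 0) (hA : (ℓ : Kbar) ∈ A.nonunits)

/-- **`V∞`**: the Gauss valuation ring of the `t`-expansion at `∞` on `ℚ̄(X₀(N))`. -/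
def Vinf : ValuationSubring (FF N) :=
  gaussInfBar A hℓ hA (modularFunctionFieldFull N) (intGen_full N)

/-- **`V₀ = V∞ ∘ w_N`**. -/
def Vzero : ValuationSubring (FF N) := comapW N (Vinf N A hℓ hA)

/-- the constants of `FF N`. -/
abbrev constFF : Subfield (FF N) := constField (modularFunctionFieldFull N)

/-! ### generalities on valuation subrings -/

section general

variable {F : Type*} [Field F] (V : ValuationSubring F)

theorem valuation_eq_one_iff_mem {f : F} (hf : f ≠ 0) :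
    V.valuation f = 1 ↔ f ∈ V ∧ f⁻¹ ∈ V := by
  rw [← V.valuation_le_one_iff, ← V.valuation_le_one_iff, map_inv₀]
  have h0 : V.valuation f ≠ 0 := (Valuation.ne_zero_iff _).mpr hf
  constructor
  · intro h
    rw [h, inv_one]
    exact ⟨le_rfl, le_rfl⟩
  · rintro ⟨h1, h2⟩
    rw [inv_le_one₀ (zero_lt_iff.mpr h0)] at h2
    exact le_antisymm h1 h2

theorem valuation_lt_one_iff_mem {f : F} : V.valuation f < 1 ↔ f = 0 ∨ f⁻¹ ∉ V := by
  rw [← V.valuation_le_one_iff, map_inv₀]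
  by_cases h0 : f = 0
  · simp [h0]
  · have hv : V.valuation f ≠ 0 := (Valuation.ne_zero_iff _).mpr h0
    rw [inv_le_one₀ (zero_lt_iff.mpr hv), not_le]
    simp [h0]

end general

/-! ### K2 at `V∞` -/

theorem hasConstValues_Vinf : HasConstValues (constFF N) (Vinf N A hℓ hA) :=
  hasConstValues hℓ hA (intGen_full N)

variable {N A}

theorem inInertia_Vinf {σ : Kbar ≃ₐ[ℚ] Kbar} (hσ : σ ∈ A.inertiaSubgroupIn ℚ) :
    InInertia (Vinf N A hℓ hA) (gal N σ) :=
  inInertia hℓ hA (intGen_full N) hσ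

theorem preservesConstValues_Vinf {σ : Kbar ≃ₐ[ℚ] Kbar} (hσ : σ ∈ A.inertiaSubgroupIn ℚ) :
    PreservesConstValues (constFF N) (Vinf N A hℓ hA) (gal N σ) :=
  preservesConstValues hℓ hA (intGen_full N) hσ

theorem constants_stable_FF (σ : Kbar ≃ₐ[ℚ] Kbar) :
    ∀ c ∈ constFF N, gal N σ c ∈ constFF N :=
  constants_stable σ

/-- **`(τ - 1)² f ∈ 1 + 𝔪_{V∞}`.** -/
theorem oneAddNonunits_twice_Vinf {σ : Kbar ≃ₐ[ℚ] Kbar} (hσ : σ ∈ A.inertiaSubgroupIn ℚ)
    {f : FF N} (hf : f ≠ 0) :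
    OneAddNonunits (Vinf N A hℓ hA) (tauSubOne (gal N σ) (tauSubOne (gal N σ) f)) :=
  oneAddNonunits_twice (hasConstValues_Vinf N A hℓ hA) (inInertia_Vinf hℓ hA hσ)
    (preservesConstValues_Vinf hℓ hA hσ) hf

/-- **`(τ - 1) f` is a unit of `V∞`.** -/
theorem isUnitOf_once_Vinf {σ : Kbar ≃ₐ[ℚ] Kbar} (hσ : σ ∈ A.inertiaSubgroupIn ℚ)
    {f : FF N} (hf : f ≠ 0) :
    IsUnitOf (Vinf N A hℓ hA) (tauSubOne (gal N σ) f) :=
  isUnitOf_once (hasConstValues_Vinf N A hℓ hA) (inInertia_Vinf hℓ hA hσ)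
    (preservesConstValues_Vinf hℓ hA hσ) hf

/-! ### transfer to `V₀` -/

theorem wF_tauSubOne (σ : Kbar ≃ₐ[ℚ] Kbar) (f : FF N) :
    wF N (tauSubOne (gal N σ) f) = tauSubOne (gal N σ) (wF N f) := by
  unfold tauSubOne
  rw [map_mul, map_inv₀, wF_gal]

theorem oneAddNonunits_Vzero_iff {g : FF N} :
    OneAddNonunits (Vzero N A hℓ hA) g ↔ OneAddNonunits (Vinf N A hℓ hA) (wF N g) := by
  unfold OneAddNonunits
  rw [valuation_lt_one_iff_mem, valuation_lt_one_iff_mem]
  have h1 : wF N g - 1 = wF N (g - 1) := by rw [map_sub, map_one]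
  rw [h1]
  constructor
  · rintro (h | h)
    · left; rw [h, map_zero]
    · right
      intro hmem
      apply h
      show wF N (g - 1)⁻¹ ∈ Vinf N A hℓ hA
      rw [map_inv₀]
      exact hmem
  · rintro (h | h)
    · left
      exact (map_eq_zero_iff _ (wF N).injective).mp h
    · right
      intro hmem
      apply h
      have : wF N (g - 1)⁻¹ ∈ Vinf N A hℓ hA := hmem
      rwa [map_inv₀] at this

theorem isUnitOf_Vzero_iff {g : FF N} :
    IsUnitOf (Vzero N A hℓ hA) g ↔ IsUnitOf (Vinf N A hℓ hA) (wF N g) := by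
  unfold IsUnitOf
  by_cases hg : g = 0
  · rw [hg, map_zero, map_zero, map_zero]
    simp
  · have hg' : wF N g ≠ 0 := fun h => hg ((map_eq_zero_iff _ (wF N).injective).mp h)
    rw [valuation_eq_one_iff_mem _ hg, valuation_eq_one_iff_mem _ hg', ← map_inv₀]
    rfl

/-- **`(τ - 1)² f ∈ 1 + 𝔪_{V₀}`.** -/
theorem oneAddNonunits_twice_Vzero {σ : Kbar ≃ₐ[ℚ] Kbar} (hσ : σ ∈ A.inertiaSubgroupIn ℚ)
    {f : FF N} (hf : f ≠ 0) :
    OneAddNonunits (Vzero N A hℓ hA) (tauSubOne (gal N σ) (tauSubOne (gal N σ) f)) := by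
  rw [oneAddNonunits_Vzero_iff, wF_tauSubOne, wF_tauSubOne]
  exact oneAddNonunits_twice_Vinf hℓ hA hσ
    (fun h => hf ((map_eq_zero_iff _ (wF N).injective).mp h))

/-- **`(τ - 1) f` is a unit of `V₀`.** -/
theorem isUnitOf_once_Vzero {σ : Kbar ≃ₐ[ℚ] Kbar} (hσ : σ ∈ A.inertiaSubgroupIn ℚ)
    {f : FF N} (hf : f ≠ 0) :
    IsUnitOf (Vzero N A hℓ hA) (tauSubOne (gal N σ) f) := by
  rw [isUnitOf_Vzero_iff, wF_tauSubOne]
  exact isUnitOf_once_Vinf hℓ hA hσ
    (fun h => hf ((map_eq_zero_iff _ (wF N).injective).mp h))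

/-! ### `V₀ ≠ V∞` -/

theorem coe_eq_incl_of_intEmb {f : FF N} {g : LaurentSeries ℤ}
    (h : ((f : FF N) : LaurentSeries Kbar) = intEmb g) :
    ((f : FF N) : LaurentSeries Kbar) = incl A (castA A g) := by
  rw [h, intEmb, incl, castA, coeffMap_coeffMap]
  exact coeffMap_congr (RingHom.ext_int _ _) g

/-- **The two Gauss valuations are different** (`ℓ ∣ N`). -/
theorem Vzero_ne_Vinf [Fact ℓ.Prime] (h : ℓ ∣ N) : Vzero N A hℓ hA ≠ Vinf N A hℓ hA := by
  refine comapW_ne N ℓ h (Vinf N A hℓ hA) ?_ ?_ ?_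
  · intro f g hg
    exact mem_gaussInfBar_of_incl hℓ hA (intGen_full N) (castA A g) (coe_eq_incl_of_intEmb hg)
  · intro f g k hg hk
    refine inv_mem_gaussInfBar_of_incl hℓ hA (intGen_full N) (castA A g)
      (coe_eq_incl_of_intEmb hg) ?_
    rw [red_ne_zero_iff]
    refine ⟨k, ?_⟩
    have : (((castA A g).coeff k : A) : Kbar) = -1 := by
      show (((Int.castRingHom A) (g.coeff k) : A) : Kbar) = -1
      rw [hk]
      simp
    rw [this, Valuation.map_neg, map_one]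
  · exact inv_prime_not_mem_gaussInfBar hℓ hA (intGen_full N)

end Fermat.Agent.A2.H708
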